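import Fermat.Agent.LG.Emb
import Fermat.Agent.RH.Formula

/-!
# The genus of the field of modular functions on `Γ`: upper bound
-/

set_option autoImplicit false

noncomputable section

open UpperHalfPlane Function ModularCurve ModularForm AlgebraicCurve WithZero
open scoped MatrixGroups

namespace Fermat.Agent.KPr

open Fermat.Agent.X0Places Fermat.Agent.FunField Fermat.Agent.FunField.PlaceLemmas
  IntermediateField Fermat.Agent.LG
open Fermat.Agent.JInv (rho)

variable {L : Type*} [Field L] [Algebra ℚ L] [IsAlgClosed L]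
variable (ι : L →+* ℂ) (Γ : Subgroup SL(2, ℤ)) (N : ℕ) [NeZero N] [hMF : MF ι Γ N]

include hMF in
theorem transcendental_jG : Transcendental L (jG ι Γ N) := by
  have h := (embC ι Γ N).transcendental_t
  rw [embC_t] at h
  intro h1
  exact h h1.inv

theorem mem_support_zeroDiv {K M : Type*} [Field K] [Field M] [Algebra K M] [IsFF K M]
    (f : M) (v : Place K M) : v ∈ (zeroDiv f : Divisor K M).support ↔ 0 < v.ord f := by
  rw [Finsupp.mem_support_iff, zeroDiv_apply]
  omega

/-- orders at the places over a point -/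
theorem ord_le_of_point {τ : ℍ} {a : L} (ha : Fermat.Agent.JInv.jInv τ = ι a) {g : SL(2, ℤ)}
    (hg : g • τ = τ) (hord : orderOf (derivAt g τ) = ordJ τ)
    (hfix : ∀ x : XG Γ, g • x = x ∨
      ordJ τ ≤ Nat.card (MulAction.orbit (Subgroup.zpowers g) x))
    (v : Place L (FG ι Γ N)) (hv : 0 < v.ord (jG ι Γ N - algebraMap L (FG ι Γ N) a)) :
    v.ord (jG ι Γ N - algebraMap L (FG ι Γ N) a) ≤ ordJ τ := by
  haveI := MF.fin (ι := ι) (Γ := Γ) (N := N)
  have H := orbitHypT ι Γ N ha hg hord hfix
  obtain ⟨x, rfl⟩ := H.exists_place v hv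
  have h2 := H.ord_eq x
  rw [embT_t] at h2
  rw [h2]
  have h3 := H.card_mul_idx x
  have h4 : (embT ι Γ N τ a ha).e0 = ordJ τ := rfl
  rw [h4] at h3
  have h5 := (embT ι Γ N τ a ha).idx_pos x
  rw [← h3]
  exact_mod_cast Nat.le_mul_of_pos_right _ h5

/-- The map `j` is unramified outside `0, 1728, ∞`. -/
theorem ord_eq_one_of_generic (a : L) (h0 : a ≠ 0) (h1 : a ≠ 1728) (v : Place L (FG ι Γ N))
    (hv : 0 < v.ord (jG ι Γ N - algebraMap L (FG ι Γ N) a)) :
    v.ord (jG ι Γ N - algebraMap L (FG ι Γ N) a) = 1 := by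
  obtain ⟨τ, hτ⟩ := Fermat.Agent.JInv.jInv_surjective (ι a)
  have hg := jInv_generic (τ := τ) (by rw [hτ]; simpa using h0) (by
    rw [hτ]
    intro h
    apply h1
    apply ι.injective
    rw [h]; exact (map_ofNat ι 1728).symm)
  have hJ := ordJ_generic hg.1 hg.2
  have h := ord_le_of_point ι Γ N hτ (g := 1) (one_smul _ _) (by rw [orderOf_derivAt_one, hJ])
    (fun x => Or.inl (one_smul _ _)) v hv
  rw [hJ] at h
  push_cast at h
  omega

theorem ord_le_three (v : Place L (FG ι Γ N))
    (hv : 0 < v.ord (jG ι Γ N - algebraMap L (FG ι Γ N) 0)) :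
    v.ord (jG ι Γ N - algebraMap L (FG ι Γ N) 0) ≤ 3 := by
  have hτ : Fermat.Agent.JInv.jInv rho = ι (0 : L) := by
    rw [map_zero]; exact Fermat.Agent.JInv.jInv_rho
  have hneg := MF.neg (ι := ι) (Γ := Γ) (N := N)
  have h := ord_le_of_point ι Γ N hτ ST_smul_rho (by rw [orderOf_derivAt_ST, ordJ_rho])
    (fun x => by
      rw [ordJ_rho]
      refine fix_or_card' Nat.prime_three x ?_
      have h : (ModularGroup.S * ModularGroup.T) ^ 3 = -1 := by
        ext i j
        fin_cases i <;> fin_cases j <;> rfl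
      rw [h, neg_one_smul' hneg]) v hv
  rw [ordJ_rho] at h
  exact_mod_cast h

theorem ord_le_two (v : Place L (FG ι Γ N))
    (hv : 0 < v.ord (jG ι Γ N - algebraMap L (FG ι Γ N) 1728)) :
    v.ord (jG ι Γ N - algebraMap L (FG ι Γ N) 1728) ≤ 2 := by
  have hτ : Fermat.Agent.JInv.jInv UpperHalfPlane.I = ι (1728 : L) := by
    rw [Fermat.Agent.JInv.jInv_I]; exact (map_ofNat ι 1728).symm
  have hneg := MF.neg (ι := ι) (Γ := Γ) (N := N)
  have h := ord_le_of_point ι Γ N hτ Fermat.Agent.JInv.S_smul_I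
    (by rw [orderOf_derivAt_S, ordJ_I])
    (fun x => by
      rw [ordJ_I]
      refine fix_or_card' Nat.prime_two x ?_
      have h : ModularGroup.S ^ 2 = -1 := by
        ext i j
        fin_cases i <;> fin_cases j <;> rfl
      rw [h, neg_one_smul' hneg]) v hv
  rw [ordJ_I] at h
  exact_mod_cast h

/-- the sum of the orders at the zeros of a function is the degree -/
theorem sum_ord_support {K M : Type*} [Field K] [IsAlgClosed K] [Field M] [Algebra K M]
    [IsFF K M] {h : M} (htr : Transcendental K h) :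
    ∑ v ∈ (zeroDiv h : Divisor K M).support, v.ord h = Module.finrank K⟮h⟯ M := by
  rw [← degree_zeroDiv htr, degree_eq_sum, Finsupp.sum]
  refine Finset.sum_congr rfl fun v hv => ?_
  rw [mem_support_zeroDiv] at hv
  rw [zeroDiv_apply, max_eq_left hv.le, v.deg_eq_one_of_isAlgClosed_of_finite]
  simp

theorem finrank_sub_algebraMap {K M : Type*} [Field K] [Field M] [Algebra K M] (h : M) (a : K) :
    Module.finrank K⟮h - algebraMap K M a⟯ M = Module.finrank K⟮h⟯ M := by
  have : K⟮h - algebraMap K M a⟯ = K⟮h⟯ := by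
    apply le_antisymm
    · rw [adjoin_simple_le_iff]
      exact sub_mem (mem_adjoin_simple_self K _) (IntermediateField.algebraMap_mem _ a)
    · rw [adjoin_simple_le_iff]
      have := add_mem (mem_adjoin_simple_self K (h - algebraMap K M a))
        (IntermediateField.algebraMap_mem K⟮h - algebraMap K M a⟯ a)
      rwa [sub_add_cancel] at this
  rw [this]

/-- **Genus inequality in characteristic zero**: for a subgroup `Γ` of index `μ` containing
`-1` one has `6 (2 g - 2) ≤ μ - 6 c`, where `c` is the number of cusps. -/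
theorem genus_le_charZero :
    6 * (2 * (genusFF L (FG ι Γ N) : ℤ) - 2) ≤
      (Nat.card (XG Γ) : ℤ) - 6 * Nat.card {v : Place L (FG ι Γ N) // v.ord (jG ι Γ N) < 0} := by
  classical
  haveI : CharZero L := algebraRat.charZero L
  have htr := transcendental_jG ι Γ N
  have htr0 : ∀ a : L, Transcendental L (jG ι Γ N - algebraMap L (FG ι Γ N) a) := by
    intro a h
    apply htr
    have := h.add (isAlgebraic_algebraMap (R := L) (A := FG ι Γ N) a)
    rwa [sub_add_cancel] at this
  have h1728 : (0 : L) ≠ 1728 := by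
    have : (1728 : L) ≠ 0 := by exact_mod_cast (by norm_num : (1728 : ℕ) ≠ 0)
    exact this.symm
  have key := Fermat.Agent.RH.riemann_hurwitz_charZero htr {0, 1728} (by
    intro a v ha hv
    rw [Finset.mem_insert, Finset.mem_singleton, not_or] at ha
    exact ord_eq_one_of_generic ι Γ N a ha.1 ha.2 v hv)
  rw [Finset.sum_pair h1728, MF.deg] at key
  have hA : 3 * ∑ v ∈ (zeroDiv (jG ι Γ N - algebraMap L (FG ι Γ N) 0) :
      Divisor L (FG ι Γ N)).support, (v.ord (jG ι Γ N - algebraMap L (FG ι Γ N) 0) - 1) ≤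
      2 * (Nat.card (XG Γ) : ℤ) := by
    rw [← MF.deg (ι := ι) (Γ := Γ) (N := N), ← finrank_sub_algebraMap (jG ι Γ N) (0 : L),
      ← sum_ord_support (htr0 0), Finset.mul_sum, Finset.mul_sum]
    refine Finset.sum_le_sum fun v hv => ?_
    rw [mem_support_zeroDiv] at hv
    have := ord_le_three ι Γ N v hv
    omega
  have hB : 2 * ∑ v ∈ (zeroDiv (jG ι Γ N - algebraMap L (FG ι Γ N) 1728) :
      Divisor L (FG ι Γ N)).support, (v.ord (jG ι Γ N - algebraMap L (FG ι Γ N) 1728) - 1) ≤
      (Nat.card (XG Γ) : ℤ) := by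
    rw [← MF.deg (ι := ι) (Γ := Γ) (N := N), ← finrank_sub_algebraMap (jG ι Γ N) (1728 : L),
      ← sum_ord_support (htr0 1728), Finset.mul_sum]
    refine Finset.sum_le_sum fun v hv => ?_
    rw [mem_support_zeroDiv] at hv
    have := ord_le_two ι Γ N v hv
    omega
  have hC : ∑ v ∈ (zeroDiv (jG ι Γ N)⁻¹ : Divisor L (FG ι Γ N)).support,
      (v.ord (jG ι Γ N)⁻¹ - 1) = (Nat.card (XG Γ) : ℤ) -
        Nat.card {v : Place L (FG ι Γ N) // v.ord (jG ι Γ N) < 0} := by
    haveI := MF.fin (ι := ι) (Γ := Γ) (N := N)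
    have H := orbitHypC ι Γ N
    have h1 := H.card_places
    have h2 := H.sum_ord_sub_one
    rw [embC_t] at h1 h2
    rw [h2, ← h1]
    congr 2
    apply Nat.card_congr
    apply Equiv.subtypeEquivRight
    intro v
    rw [v.ord_inv]
    omega
  rw [hC] at key
  omega

end Fermat.Agent.KPr
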