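import Fermat.Agent.X0Places.Counting
import Fermat.Agent.Cusps.OrdVal
import Fermat.Agent.Cusps.ResEmb
import Fermat.Agent.Cusps.CuspEmb
import Fermat.Agent.ModDeg.General
import Fermat.Agent.HeckeRed.FF

/-!
# Counting the cusps in a Galois cover of the `j`-line
-/

set_option autoImplicit false

noncomputable section

open Function ModularCurve AlgebraicCurve WithZero IntermediateField

namespace Fermat.Agent.KPr

open Fermat.Agent.X0Places Fermat.Agent.FunField Fermat.Agent.FunField.PlaceLemmas
  Fermat.Agent.Cusps Fermat.Agent.ModDeg Fermat.Agent.ModPoly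

section Count

variable {K : Type*} [Field K] {F : IntermediateField K (LaurentSeries K)}

/-- embedding data at the cusps attached to a family of automorphisms -/
def embG {G : Type*} (σ : G → (F ≃ₐ[K] F)) (hinj : Injective σ) {h : F}
    (hfix : ∀ g, σ g h = h) {Q : ℕ} (hQ : 0 < Q)
    (hh : lval K (h : LaurentSeries K) = exp (Q : ℤ)) : EmbData K F (LaurentSeries K) G where
  w := lval K
  σ g := (algebraMap F (LaurentSeries K)).comp (σ g : F →+* F)
  inj := by
    intro a b hab
    apply hinj
    apply AlgEquiv.ext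
    intro x
    exact (algebraMap F (LaurentSeries K)).injective (RingHom.congr_fun hab x)
  hL i j c := by
    show algebraMap F (LaurentSeries K) (σ i (algebraMap K F c)) =
      algebraMap F (LaurentSeries K) (σ j (algebraMap K F c))
    rw [(σ i).commutes, (σ j).commutes]
  hwL i c := by
    show lval K (algebraMap F (LaurentSeries K) (σ i (algebraMap K F c))) ≤ 1
    rw [(σ i).commutes]
    exact lval_algebraMap_le c
  t := h⁻¹
  ht i j := by
    show algebraMap F (LaurentSeries K) (σ i h⁻¹) = algebraMap F (LaurentSeries K) (σ j h⁻¹)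
    rw [map_inv₀ (σ i), map_inv₀ (σ j), hfix, hfix]
  e0 := Q
  e0_pos := hQ
  hwt i := by
    show lval K (algebraMap F (LaurentSeries K) (σ i h⁻¹)) = _
    rw [map_inv₀ (σ i), hfix, map_inv₀, map_inv₀]
    show (lval K (h : LaurentSeries K))⁻¹ = _
    rw [hh, exp_neg]

variable [IsFF K F]

theorem embG_idx {G : Type*} (σ : G → (F ≃ₐ[K] F)) (hinj : Injective σ) {h : F}
    (hfix : ∀ g, σ g h = h) {Q : ℕ} (hQ : 0 < Q)
    (hh : lval K (h : LaurentSeries K) = exp (Q : ℤ)) {j : F}
    (hj : lval K (j : LaurentSeries K) = exp (1 : ℤ)) (g : G) :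
    (embG σ hinj hfix hQ hh).idx g = 1 := by
  have hj0 : j ≠ 0 := by
    rintro rfl
    rw [ZeroMemClass.coe_zero, map_zero] at hj
    exact exp_ne_zero hj.symm
  have hx0 : (σ g).symm j ≠ 0 := by
    rw [Ne, map_eq_zero_iff _ (σ g).symm.injective]
    exact hj0
  have h1 := (embG σ hinj hfix hQ hh).w_eq g hx0
  have h2 : lval K (algebraMap F (LaurentSeries K) (σ g ((σ g).symm j))) =
      exp (-(((embG σ hinj hfix hQ hh).idx g : ℤ) *
        ((embG σ hinj hfix hQ hh).place g).ord ((σ g).symm j))) := h1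
  rw [AlgEquiv.apply_symm_apply] at h2
  have h3 : lval K (algebraMap F (LaurentSeries K) j) = exp (1 : ℤ) := hj
  rw [h3, exp_inj] at h2
  have h4 : ((embG σ hinj hfix hQ hh).idx g : ℤ) ∣ 1 :=
    ⟨-((embG σ hinj hfix hQ hh).place g).ord ((σ g).symm j), by rw [h2]; ring⟩
  have h5 := Int.eq_one_of_dvd_one (by positivity) h4
  exact_mod_cast h5

variable [IsAlgClosed K]

/-- all the cusps of a Galois cover have the same ramification index -/
theorem ord_cusp {G : Type*} [Finite G] [Nonempty G] (σ : G → (F ≃ₐ[K] F)) (hinj : Injective σ)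
    {h : F} (hfix : ∀ g, σ g h = h) (hcard : Nat.card G = Module.finrank K⟮h⟯ F)
    {Q : ℕ} (hQ : 0 < Q)
    (hh : lval K (h : LaurentSeries K) = exp (Q : ℤ)) {j : F}
    (hj : lval K (j : LaurentSeries K) = exp (1 : ℤ)) (v : Place K F) (hv : v.ord h < 0) :
    v.ord h = -(Q : ℤ) := by
  have hcard' : Nat.card G = Module.finrank K⟮(embG σ hinj hfix hQ hh).t⟯ F := by
    show Nat.card G = Module.finrank K⟮h⁻¹⟯ F
    rw [hcard]
    exact (finrank_adjoin_inv h).symm
  obtain ⟨g, rfl⟩ := (embG σ hinj hfix hQ hh).exists_place_eq hcard' v (by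
    show 0 < v.ord h⁻¹
    rw [v.ord_inv]; omega)
  have h1 := (embG σ hinj hfix hQ hh).idx_mul_ord g
  rw [embG_idx σ hinj hfix hQ hh hj g] at h1
  have h2 : ((1 : ℕ) : ℤ) * ((embG σ hinj hfix hQ hh).place g).ord h⁻¹ = (Q : ℤ) := h1
  rw [Place.ord_inv] at h2
  push_cast at h2
  omega

/-- **The number of cusps of a Galois cover.** -/
theorem card_cusps_galois {G : Type*} [Finite G] [Nonempty G] (σ : G → (F ≃ₐ[K] F))
    (hinj : Injective σ) {h : F} (hfix : ∀ g, σ g h = h)
    (hcard : Nat.card G = Module.finrank K⟮h⟯ F) {Q : ℕ} (hQ : 0 < Q)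
    (hh : lval K (h : LaurentSeries K) = exp (Q : ℤ)) {j : F}
    (hj : lval K (j : LaurentSeries K) = exp (1 : ℤ)) :
    Q * Nat.card {v : Place K F // v.ord h < 0} = Nat.card G := by
  classical
  have hcard' : Nat.card G = Module.finrank K⟮(embG σ hinj hfix hQ hh).t⟯ F := by
    show Nat.card G = Module.finrank K⟮h⁻¹⟯ F
    rw [hcard]
    exact (finrank_adjoin_inv h).symm
  have h1 := degree_zeroDiv (K := K) (embG σ hinj hfix hQ hh).transcendental_t
  rw [(embG σ hinj hfix hQ hh).degree_zeroDiv_eq, ← hcard'] at h1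
  have hmem : ∀ v : Place K F, v ∈ (zeroDiv h⁻¹ : Divisor K F).support ↔ v.ord h < 0 := by
    intro v
    rw [Finsupp.mem_support_iff, zeroDiv_apply, v.ord_inv]
    omega
  have h2 : ∑ v ∈ (zeroDiv h⁻¹ : Divisor K F).support, v.ord h⁻¹ =
      ∑ v ∈ (zeroDiv h⁻¹ : Divisor K F).support, (Q : ℤ) := by
    refine Finset.sum_congr rfl fun v hv => ?_
    rw [hmem] at hv
    rw [v.ord_inv, ord_cusp σ hinj hfix hcard hQ hh hj v hv, neg_neg]
  have h3 : ∑ v ∈ (zeroDiv h⁻¹ : Divisor K F).support, v.ord h⁻¹ = (Nat.card G : ℤ) := h1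
  rw [h2, Finset.sum_const, nsmul_eq_mul] at h3
  have h4 : Nat.card {v : Place K F // v.ord h < 0} =
      (zeroDiv h⁻¹ : Divisor K F).support.card := by
    rw [← Fintype.card_coe, ← Nat.card_eq_fintype_card]
    exact Nat.card_congr (Equiv.subtypeEquivRight fun v => (hmem v).symm)
  rw [h4, mul_comm]
  exact_mod_cast h3

end Count

section Integral

variable {K Ω : Type*} [Field K] [Field Ω] [Algebra K Ω] {F : IntermediateField K Ω}

theorem isIntegral_inside {x y : F}
    (h : IsIntegral (Algebra.adjoin K {(x : Ω)}) (y : Ω)) :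
    IsIntegral (Algebra.adjoin K {x}) y := by
  have hmap : (Algebra.adjoin K {x}).map F.val = Algebra.adjoin K {(x : Ω)} := by
    rw [AlgHom.map_adjoin, Set.image_singleton]; rfl
  have h1 : HeckeRed.IntOver ((Algebra.adjoin K {(x : Ω)} : Subalgebra K Ω) : Set Ω) (y : Ω) :=
    HeckeRed.intOver_of_isIntegral (fun r => r.2) h
  have h2 : IsIntegral (Algebra.adjoin K {x}) (algebraMap F Ω y) := by
    refine HeckeRed.isIntegral_of_intOver (fun s hs => ?_) h1
    rw [SetLike.mem_coe, ← hmap] at hs
    obtain ⟨z, hz, rfl⟩ := hs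
    exact ⟨⟨z, hz⟩, rfl⟩
  exact (isIntegral_algebraMap_iff (algebraMap F Ω).injective).1 h2

variable [IsFF K F]

theorem ord_nonneg_of_isIntegral {x y : F}
    (h : IsIntegral (Algebra.adjoin K {(x : Ω)}) (y : Ω)) (v : Place K F) (hx : 0 ≤ v.ord x) :
    0 ≤ v.ord y := by
  rcases eq_or_ne y 0 with rfl | hy
  · simp
  have h1 := isIntegral_inside h
  have h2 : y ∈ v.toValuationSubring := by
    apply mem_of_isIntegral_of_le v.toValuationSubring (Algebra.adjoin K {x}).toSubring
    · have hx' : x ∈ v.toValuationSubring := by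
        rcases eq_or_ne x 0 with rfl | hx0
        · exact zero_mem _
        · rwa [mem_iff_ord_nonneg v hx0]
      intro z hz
      have hz' : z ∈ Algebra.adjoin K {x} := hz
      show z ∈ v.toValuationSubring
      induction hz' using Algebra.adjoin_induction with
      | mem a ha => rw [Set.mem_singleton_iff.1 ha]; exact hx'
      | algebraMap r => exact v.algebraMap_mem' r
      | add a b _ _ ha hb => exact add_mem (ha ‹_›) (hb ‹_›)
      | mul a b _ _ ha hb => exact mul_mem (ha ‹_›) (hb ‹_›)
    · exact h1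
  rwa [mem_iff_ord_nonneg v hy] at h2

end Integral

section Poles

variable {K : Type*} [Field K] {F : IntermediateField K (LaurentSeries K)} [IsFF K F]

/-- The poles of `j(q)` and of `j(q^Q)` are the same. -/
theorem ord_neg_iff {j h : F} (hj : (j : LaurentSeries K) = jqModC K) {Q : ℕ} [NeZero Q]
    (hh : (h : LaurentSeries K) = qExpand K Q (jqModC K)) (v : Place K F) :
    v.ord j < 0 ↔ v.ord h < 0 := by
  have h1 : IsIntegral (Algebra.adjoin K {(j : LaurentSeries K)}) (h : LaurentSeries K) := by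
    rw [hj, hh, ← vj_eq]
    exact isIntegral_vj K (NeZero.ne Q)
  have h2 : IsIntegral (Algebra.adjoin K {(h : LaurentSeries K)}) (j : LaurentSeries K) := by
    rw [hj, hh, ← vj_eq]
    exact isIntegral_jq_vj K (NeZero.ne Q)
  have h3 := ord_nonneg_of_isIntegral h1 v
  have h4 := ord_nonneg_of_isIntegral h2 v
  constructor
  · intro h5
    by_contra h6
    push Not at h6
    have := h4 h6
    omega
  · intro h5
    by_contra h6
    push Not at h6
    have := h3 h6
    omega

theorem lval_jq (K : Type*) [Field K] : lval K (jqModC K) = exp (1 : ℤ) := by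
  have h : lval K (jqModC K) = exp (-(-1 : ℤ)) := by
    apply lval_eq_of
    · intro k hk
      have := Fermat.Agent.Cusps.coeff_jtw_of_lt K 1 1 (k := k) (by push_cast; omega)
      rwa [jtw, twist_one, qExpand_one_apply] at this
    · have := Fermat.Agent.Cusps.coeff_jtw_neg K 1 1
      rw [jtw, twist_one, qExpand_one_apply] at this
      push_cast at this
      rw [this]
      simp
  rw [h, neg_neg]

theorem lval_jqN (K : Type*) [Field K] (Q : ℕ) [NeZero Q] :
    lval K (qExpand K Q (jqModC K)) = exp (Q : ℤ) := by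
  have h : lval K (qExpand K Q (jqModC K)) = exp (-(-(Q : ℤ))) := by
    apply lval_eq_of
    · intro k hk
      have := Fermat.Agent.Cusps.coeff_jtw_of_lt K Q 1 hk
      rwa [jtw, twist_one] at this
    · have := Fermat.Agent.Cusps.coeff_jtw_neg K Q 1
      rw [jtw, twist_one] at this
      rw [this]
      simp
  rw [h, neg_neg]

/-- **The number of cusps** in a cover which is Galois over `K(j(q^Q))`. -/
theorem card_poles_j [IsAlgClosed K] {G : Type*} [Finite G] [Nonempty G] (σ : G → (F ≃ₐ[K] F))
    (hinj : Injective σ) {j h : F} (hj : (j : LaurentSeries K) = jqModC K) {Q : ℕ} [NeZero Q]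
    (hh : (h : LaurentSeries K) = qExpand K Q (jqModC K)) (hfix : ∀ g, σ g h = h)
    (hcard : Nat.card G = Module.finrank K⟮h⟯ F) :
    Q * Nat.card {v : Place K F // v.ord j < 0} = Nat.card G := by
  rw [← card_cusps_galois σ hinj hfix hcard (Nat.pos_of_ne_zero (NeZero.ne Q))
    (by rw [hh, lval_jqN]) (j := j) (by rw [hj, lval_jq])]
  congr 1
  exact Nat.card_congr (Equiv.subtypeEquivRight fun v => ord_neg_iff hj hh v)

end Poles

end Fermat.Agent.KPr
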