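import Fermat.Agent.KPr.GenusGe
import Fermat.Agent.KPr.CharZero
import Fermat.Agent.LG.InjG

/-!
# Reduction of the field of modular functions on `Γ`, and equality of genera
-/

set_option autoImplicit false
set_option linter.style.haveILetI false

noncomputable section

open Function ModularCurve AlgebraicCurve WithZero IntermediateField Module
open scoped MatrixGroups

namespace Fermat.Agent.KPr

open Fermat.Agent.X0Places Fermat.Agent.FunField Fermat.Agent.FunField.PlaceLemmas
  Fermat.Agent.Cusps Fermat.Agent.ModDeg Fermat.Agent.ModPoly Fermat.Agent.Igusa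
  Fermat.Agent.LG Fermat.Agent.LGRes

section Data

attribute [local instance 2000] lsModule lsSMul

variable {L : Type*} [Field L] (A : ValuationSubring L) {κ : Type*} [Field κ] (π : A →+* κ)
  [IsLocalHom π] (hπ : Function.Surjective π) {F : IntermediateField L (LaurentSeries L)}
  (hF : IsTameField F)

/-- the residue map of a tame field, with values in the residue field -/
def tameRes : gaussVal A π hF →+* gaussImage A π hF hπ :=
  RingHom.codRestrict (gaussValRes A π hF) (gaussImage A π hF hπ) (fun x => ⟨x, rfl⟩)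

omit [IsLocalHom π] in
theorem coe_tameRes (x : gaussVal A π hF) :
    (tameRes A π hπ hF x : LaurentSeries κ) = gaussValRes A π hF x := rfl

/-- **Deuring reduction data for a tame field.** -/
def tameData : Deuring.Data L κ F (gaussImage A π hF hπ) where
  A := A
  O := gaussVal A π hF
  π := π
  res := tameRes A π hπ hF
  mem_iff a := ⟨fun h => mem_of_algebraMap_mem_gaussRing (π := π) h,
    fun h => algebraMap_mem_gaussRing A π ⟨a, h⟩⟩
  π_surj := hπ
  π_ker a := by
    constructor
    · intro h hu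
      have := hu.map π
      rw [h] at this
      exact not_isUnit_zero this
    · intro h
      by_contra hcon
      exact h (isUnit_of_map_unit π a (isUnit_iff_ne_zero.mpr hcon))
  res_surj := by
    rintro ⟨_, x, rfl⟩
    exact ⟨x, rfl⟩
  res_ker f := by
    rw [isUnit_iff_valSub, ← resLocal_gaussVal A π hF f]
    exact ⟨fun h => congrArg Subtype.val h, fun h => Subtype.ext h⟩
  res_algebraMap a := Subtype.ext (gaussRes_algebraMap A π a rfl)
  lat V hV := by
    obtain ⟨b, hb, hli⟩ := exists_orthonormal A π hF V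
    refine ⟨b, hb, ?_⟩
    exact LinearIndependent.of_comp (gaussImage A π hF hπ).val.toLinearMap hli

end Data

/-- the residue fields increase with the field -/
theorem gaussImage_mono {L : Type*} [Field L] (A : ValuationSubring L) {κ : Type*} [Field κ]
    (π : A →+* κ) (hπ : Function.Surjective π) {E F : IntermediateField L (LaurentSeries L)}
    (h : E ≤ F) (hE : IsTameField E) (hF : IsTameField F) :
    gaussImage A π hE hπ ≤ gaussImage A π hF hπ := by
  rintro _ ⟨x, rfl⟩
  exact ⟨⟨⟨(x : E), h (x : E).2⟩, x.2⟩, rfl⟩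

theorem coe_jG {L : Type*} [Field L] [Algebra ℚ L] (ι : L →+* ℂ) (Γ : Subgroup SL(2, ℤ)) (N : ℕ)
    [NeZero N] : (jG ι Γ N : LaurentSeries L) = jqModC L := coe_jF L N

theorem card_poles_h_galois {K : Type*} [Field K] [IsAlgClosed K]
    {F : IntermediateField K (LaurentSeries K)} [IsFF K F] {j h : F}
    (hj : (j : LaurentSeries K) = jqModC K) {Q : ℕ} [NeZero Q]
    (hh : (h : LaurentSeries K) = qExpand K Q (jqModC K)) (hG : IsGalois K⟮h⟯ F) :
    Q * Nat.card {v : Place K F // v.ord h < 0} = finrank K⟮h⟯ F := by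
  rw [← card_poles_j_galois hj hh hG]
  congr 1
  exact Nat.card_congr (Equiv.subtypeEquivRight fun v => (ord_neg_iff hj hh v).symm)

section Expand

variable {K : Type*} [Field K] {F : IntermediateField K (LaurentSeries K)} {Q N : ℕ} [NeZero Q]
  (hle : ∀ x ∈ modularFunctionFieldFullC K N, qExpand K Q x ∈ F)

/-- the embedding `x ↦ x(q^Q)` -/
def expMap : modularFunctionFieldFullC K N →+* F where
  toFun x := ⟨qExpand K Q x, hle x x.2⟩
  map_one' := Subtype.ext (map_one _)
  map_mul' _ _ := Subtype.ext (map_mul _ _ _)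
  map_zero' := Subtype.ext (map_zero _)
  map_add' _ _ := Subtype.ext (map_add _ _ _)

theorem coe_expMap (x : modularFunctionFieldFullC K N) :
    (expMap hle x : LaurentSeries K) = qExpand K Q x := rfl

theorem expMap_tower :
    letI : Algebra (modularFunctionFieldFullC K N) F := (expMap hle).toAlgebra
    IsScalarTower K (modularFunctionFieldFullC K N) F := by
  letI : Algebra (modularFunctionFieldFullC K N) F := (expMap hle).toAlgebra
  refine IsScalarTower.of_algebraMap_eq fun a => Subtype.ext ?_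
  show algebraMap K (LaurentSeries K) a = qExpand K Q (algebraMap K (LaurentSeries K) a)
  rw [algebraMap_eq_single, qExpand_single, mul_zero]

end Expand

section Genus

variable {L : Type*} [Field L] [Algebra ℚ L] [IsAlgClosed L] {ι : L →+* ℂ}
  (A : ValuationSubring L) {κ : Type*} [Field κ] [IsAlgClosed κ] (π : A →+* κ) [IsLocalHom π]
  (hπ : Function.Surjective π) {Γ : Subgroup SL(2, ℤ)} {N : ℕ} [NeZero N]
  (hF : IsTameField (FG ι Γ N))

/-- The hypotheses on the residue field of level `Γ`: the extensions of `L(j(q^Q))` and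
`κ(j(q^Q))` are Galois of degree the index of `Γ`. -/
structure Hyp (Q : ℕ) [NeZero Q] : Prop where
  hL : qExpand L Q (jqModC L) ∈ FG ι Γ N
  galL : IsGalois L⟮(⟨_, hL⟩ : FG ι Γ N)⟯ (FG ι Γ N)
  degL : finrank L⟮(⟨_, hL⟩ : FG ι Γ N)⟯ (FG ι Γ N) = Nat.card (XG Γ)
  hκ : qExpand κ Q (jqModC κ) ∈ gaussImage A π hF hπ
  galκ : IsGalois κ⟮(⟨_, hκ⟩ : gaussImage A π hF hπ)⟯ (gaussImage A π hF hπ)
  degκ : finrank κ⟮(⟨_, hκ⟩ : gaussImage A π hF hπ)⟯ (gaussImage A π hF hπ) = Nat.card (XG Γ)

variable {A π hπ hF} [hMF : MF ι Γ N] {Q : ℕ} [NeZero Q]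

omit [IsAlgClosed L] [IsAlgClosed κ] [IsLocalHom π] in
/-- an element with integral expansion reduces into the residue field -/
theorem coeffMap_mem_gaussImage {F : IntermediateField L (LaurentSeries L)} (hF : IsTameField F)
    {P : LaurentSeries A} (hP : coeffMap A.subtype P ∈ F) :
    coeffMap π P ∈ gaussImage A π hF hπ := by
  refine ⟨⟨⟨coeffMap A.subtype P, hP⟩, ?_⟩, ?_⟩
  · rw [mem_gaussVal_iff]
    exact emb_mem_gaussRing _
  · rw [gaussValRes_apply]
    exact gaussRes_emb P

omit [IsAlgClosed L] [IsAlgClosed κ] [IsLocalHom π] in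
theorem qExpand_jq_mem_gaussImage {F : IntermediateField L (LaurentSeries L)}
    (hF : IsTameField F) (d : ℕ) [NeZero d] (hd : qExpand L d (jqModC L) ∈ F) :
    qExpand κ d (jqModC κ) ∈ gaussImage A π hF hπ := by
  have h1 : coeffMap A.subtype (qExpand A d (jqModC A)) = qExpand L d (jqModC L) := by
    rw [coeffMap_qExpand, coeffMap_jqModC]
  have h2 : coeffMap π (qExpand A d (jqModC A)) = qExpand κ d (jqModC κ) := by
    rw [coeffMap_qExpand, coeffMap_jqModC]
  rw [← h2]
  exact coeffMap_mem_gaussImage hF (by rwa [h1])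

omit [IsAlgClosed L] [IsAlgClosed κ] [IsLocalHom π] hMF in
theorem jq_mem_gaussImage : jqModC κ ∈ gaussImage A π hF hπ := by
  have h := qExpand_jq_mem_gaussImage (κ := κ) (π := π) (hπ := hπ) hF 1 (by
    rw [qExpand_one_apply, ← coe_jG ι Γ N]
    exact (jG ι Γ N).2)
  rwa [qExpand_one_apply] at h

omit [IsAlgClosed L] [IsAlgClosed κ] [IsLocalHom π] in
theorem Hyp.pos (_H : Hyp A π hπ hF Q) : 0 < Nat.card (XG Γ) := by
  have := MF.fin (ι := ι) (Γ := Γ) (N := N)
  exact Nat.card_pos

theorem transcendental_jqN (K : Type*) [Field K] (Q : ℕ) [NeZero Q] :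
    Transcendental K (qExpand K Q (jqModC K)) := by
  rw [transcendental_iff_injective]
  have h : (Polynomial.aeval (qExpand K Q (jqModC K)) : Polynomial K →ₐ[K] LaurentSeries K) =
      AlgHom.comp ⟨qExpand K Q, fun a => by
        show qExpand K Q (algebraMap K (LaurentSeries K) a) = algebraMap K (LaurentSeries K) a
        rw [algebraMap_eq_single, qExpand_single, mul_zero]⟩ (Polynomial.aeval (jqModC K)) := by
    apply Polynomial.algHom_ext
    simp
  rw [h]
  exact (qExpand_injective Q).comp (transcendental_iff_injective.mp transcendental_jqModC)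

omit [IsAlgClosed L] [IsAlgClosed κ] [IsLocalHom π] in
theorem Hyp.isFF (H : Hyp A π hπ hF Q) : IsFF κ (gaussImage A π hF hπ) := by
  refine ⟨⟨⟨_, H.hκ⟩, HeckeRed.transcendental_of_val (x := (⟨_, H.hκ⟩ : gaussImage A π hF hπ))
    (transcendental_jqN κ Q), ?_⟩⟩
  apply FiniteDimensional.of_finrank_pos
  rw [H.degκ]
  exact H.pos

/-- **Equality of genera.** -/
theorem Hyp.genus_eq (H : Hyp A π hπ hF Q) {p : ℕ} [hp : Fact p.Prime]
    (h23 : p ≤ 3) (hpκ : (p : κ) ≠ 0)
    (hle : ∀ x ∈ modularFunctionFieldFullC κ (p * p), qExpand κ Q x ∈ gaussImage A π hF hπ) :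
    haveI := H.isFF
    genusFF κ (gaussImage A π hF hπ) = genusFF L (FG ι Γ N) := by
  haveI := H.isFF
  haveI : CharZero L := algebraRat.charZero L
  have hRR := TorsInj.rrLarge_genusFF (K := L) (F := FG ι Γ N)
  have hRR₁ := TorsInj.rrLarge_genusFF (K := κ) (F := gaussImage A π hF hπ)
  have hle1 : genusFF κ (gaussImage A π hF hπ) ≤ genusFF L (FG ι Γ N) := by
    have h := (tameData A π hπ hF).genus_le hRR hRR₁
    exact_mod_cast h
  apply le_antisymm hle1
  -- the genus at level `p²`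
  have hp0 : NeZero (p * p) := ⟨mul_ne_zero hp.out.ne_zero hp.out.ne_zero⟩
  have hppL : ((p * p : ℕ) : L) ≠ 0 := Nat.cast_ne_zero.2 hp0.out
  have hppκ : ((p * p : ℕ) : κ) ≠ 0 := by
    rw [Nat.cast_mul]; exact mul_ne_zero hpκ hpκ
  have hg0 : genusFF L (modularFunctionFieldFullC L (p * p)) = 0 := by
    have h2 := hp.out.two_le
    interval_cases p
    · exact genusFF_four L ι
    · exact genusFF_nine L ι
  have hg : genusFF κ (modularFunctionFieldFullC κ (p * p)) = 0 := by
    have := genusFF_le A π hπ (p * p) hppL hppκ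
    rw [hg0] at this
    omega
  -- characteristic zero
  have h0 := genus_le_charZero ι Γ N
  have c0 := card_poles_j_galois (K := L) (F := FG ι Γ N) (j := jG ι Γ N) (h := ⟨_, H.hL⟩)
    (coe_jG ι Γ N) (Q := Q) rfl H.galL
  rw [H.degL] at c0
  -- characteristic `p`
  letI : Algebra (modularFunctionFieldFullC κ (p * p)) (gaussImage A π hF hπ) :=
    (expMap hle).toAlgebra
  have := expMap_tower hle
  have h1 := genus_ge κ h23 hpκ (M := gaussImage A π hF hπ) (h := ⟨_, H.hκ⟩)
    (Subtype.ext rfl) H.galκ.to_isSeparable hg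
  have c1 := card_poles_h_galois (K := κ) (F := gaussImage A π hF hπ)
    (j := ⟨_, jq_mem_gaussImage⟩) (h := ⟨_, H.hκ⟩) rfl (Q := Q) rfl H.galκ
  rw [H.degκ] at c1 h1
  have hc : Nat.card {v : Place L (FG ι Γ N) // v.ord (jG ι Γ N) < 0} =
      Nat.card {v : Place κ (gaussImage A π hF hπ) //
        v.ord (⟨_, H.hκ⟩ : gaussImage A π hF hπ) < 0} :=
    Nat.eq_of_mul_eq_mul_left (Nat.pos_of_ne_zero (NeZero.ne Q)) (c0.trans c1.symm)
  rw [hc] at h0
  have : (genusFF L (FG ι Γ N) : ℤ) ≤ genusFF κ (gaussImage A π hF hπ) := by linarith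
  exact_mod_cast this

/-- **Injectivity of the reduction.** -/
theorem Hyp.eq_zero_of_red (H : Hyp A π hπ hF Q) {p : ℕ} [hp : Fact p.Prime]
    (h23 : p ≤ 3) (hpκ : (p : κ) ≠ 0)
    (hle : ∀ x ∈ modularFunctionFieldFullC κ (p * p), qExpand κ Q x ∈ gaussImage A π hF hπ)
    {n : ℕ} [NeZero n] (hn : (n : κ) ≠ 0) {x : Additive Γ →+ ZMod n} (hx : x ∈ PE Γ (ZMod n))
    {f : FG ι Γ N} (hf : Rep ι Γ N n x f) {y : LaurentSeries κ}
    (hy : y ∈ gaussImage A π hF hπ) (hy0 : y ≠ 0)
    (hr : Red A π (f : LaurentSeries L) (y ^ n)) : x = 0 := by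
  haveI := H.isFF
  obtain ⟨hmem, hr'⟩ := hr
  have hd := hf.dvd hx
  have hRR := TorsInj.rrLarge_genusFF (K := L) (F := FG ι Γ N)
  have hRR₁ := TorsInj.rrLarge_genusFF (K := κ) (F := gaussImage A π hF hπ)
  rw [H.genus_eq h23 hpκ hle] at hRR₁
  obtain ⟨r, hr1, hr2⟩ := (tameData A π hπ hF).exists_reduction hRR hRR₁
  have hy0' : (⟨y, hy⟩ : gaussImage A π hF hπ) ≠ 0 := fun h0 => hy0 (congrArg Subtype.val h0)
  obtain ⟨h, -, hh⟩ := LGR.abs_exists_root (𝔇 := tameData A π hπ hF) ⟨hr1, hr2⟩ hRR hRR₁ hn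
    ⟨f, hmem⟩ hd hy0' (Subtype.ext hr')
  exact hf.eq_zero_of_pow hh.symm

/-- classes with trivial reduction vanish -/
theorem Hyp.eq_zero_of_TR (H : Hyp A π hπ hF Q) {p : ℕ} [hp : Fact p.Prime]
    (h23 : p ≤ 3) (hpκ : (p : κ) ≠ 0)
    (hle : ∀ x ∈ modularFunctionFieldFullC κ (p * p), qExpand κ Q x ∈ gaussImage A π hF hπ)
    {n : ℕ} [NeZero n] (hn : (n : κ) ≠ 0) {x : Additive Γ →+ ZMod n} (hx : x ∈ PE Γ (ZMod n))
    (hTR : TR A π ι N n x) : x = 0 := by
  obtain ⟨f, hf, hr⟩ := hTR
  exact H.eq_zero_of_red h23 hpκ hle hn hx hf (one_mem _) one_ne_zero (by rwa [one_pow])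

end Genus

end Fermat.Agent.KPr
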