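import Fermat.Agent.ModDeg.General
import Mathlib

/-!
# Degrees over `K(j(q^N))`
-/

set_option autoImplicit false

noncomputable section

open ModularCurve Polynomial
open scoped IntermediateField

namespace Fermat.Agent.KPr

open Fermat.Agent.ModPoly Fermat.Agent.ModDeg

variable {K : Type*} [Field K]

theorem map_adjoin_of (p : ℕ) [NeZero p] (y : LaurentSeries K) :
    (IntermediateField.adjoin K {y}).map (qExpandAlgHomC K p) =
    IntermediateField.adjoin K {qExpand K p y} := by
  rw [IntermediateField.adjoin_map, Set.image_singleton]
  rfl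

theorem adjoin_jqN_le_full (N : ℕ) [NeZero N] :
    IntermediateField.adjoin K {qExpand K N (jqModC K)} ≤ modularFunctionFieldFullC K N := by
  rw [IntermediateField.adjoin_le_iff, Set.singleton_subset_iff]
  exact jqModCd_mem_full K N dvd_rfl

/-- the degree over `K(j(q^N))` -/
theorem relfinrank_full_h (N : ℕ) [NeZero N] (hN : (N : K) ≠ 0) :
    IntermediateField.relfinrank (IntermediateField.adjoin K {qExpand K N (jqModC K)})
      (modularFunctionFieldFullC K N) = dedekindPsi N := by
  have main : ∀ N : ℕ, ∀ h0 : N ≠ 0, (N : K) ≠ 0 →
      haveI : NeZero N := ⟨h0⟩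
      IntermediateField.relfinrank (IntermediateField.adjoin K {qExpand K N (jqModC K)})
        (modularFunctionFieldFullC K N) = dedekindPsi N := by
    intro N
    induction N using induction_on_primes with
    | zero => intro h0; exact absurd rfl h0
    | one =>
      intro h0 hN
      rw [dedekindPsi_one, IntermediateField.relfinrank_eq_one_iff, full_le_iff K one_ne_zero]
      intro d hd
      rw [Nat.dvd_one.mp hd, vj_one, qExpand_one_apply]
      exact IntermediateField.mem_adjoin_simple_self K _
    | prime_mul p N hp ih =>
      intro h0 hN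
      have : Fact p.Prime := ⟨hp⟩
      have hN1 : N ≠ 0 := right_ne_zero_of_mul h0
      have : NeZero N := ⟨hN1⟩
      have : NeZero p := ⟨hp.ne_zero⟩
      have : NeZero (p * N) := ⟨h0⟩
      have : NeZero (N * p) := ⟨mul_ne_zero hN1 hp.ne_zero⟩
      rw [Nat.cast_mul] at hN
      have hNK : (N : K) ≠ 0 := right_ne_zero_of_mul hN
      have hpK : (p : K) ≠ 0 := left_ne_zero_of_mul hN
      have hF : modularFunctionFieldFullC K (p * N) = modularFunctionFieldFullC K (N * p) := by
        rw [mul_comm]
      have hx : qExpand K (p * N) (jqModC K) = qExpand K p (qExpand K N (jqModC K)) :=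
        (qExpand_qExpand N p (jqModC K)).symm
      have h3 := IntermediateField.relfinrank_mul_relfinrank
        (IntermediateField.map_mono (qExpandAlgHomC K p) (adjoin_jqN_le_full (K := K) N))
        (full_degeneracyC_map_le K N p)
      rw [IntermediateField.relfinrank_map_map, map_adjoin_of, ih hN1 hNK] at h3
      rw [hx, hF, ← h3, mul_comm p N]
      by_cases hpN : p ∣ N
      · rw [relfinrank_map_full_mul_of_dvd_field hNK hpK hpN, psi_mul_prime_of_dvd hN1 hp hpN,
          mul_comm]
      · rw [relfinrank_map_full_mul_of_not_dvd_field hNK hpK hpN, psi_mul_prime_of_not_dvd hp hpN,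
          mul_comm]
  exact main N (NeZero.ne N) hN

/-- **The degrees over `K(j(q^N))` and `K(j(q))` agree.** -/
theorem relfinrank_h_eq (N : ℕ) [NeZero N] (hN : (N : K) ≠ 0)
    {F : IntermediateField K (LaurentSeries K)} (hF : modularFunctionFieldFullC K N ≤ F) :
    IntermediateField.relfinrank (IntermediateField.adjoin K {qExpand K N (jqModC K)}) F =
      IntermediateField.relfinrank (IntermediateField.adjoin K {jqModC K}) F := by
  rw [← IntermediateField.relfinrank_mul_relfinrank (adjoin_jqN_le_full N) hF,
    ← IntermediateField.relfinrank_mul_relfinrank (adjoin_jq_le_full N) hF,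
    relfinrank_full_h N hN, relfinrank_full K N hN]

end Fermat.Agent.KPr
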