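import Fermat.Agent.ModDeg.General

set_option autoImplicit false
set_option linter.unusedSectionVars false

/-!
# The degree of the function field of `X₀(Q)` over `K(j(q^Q))`
-/

noncomputable section

open ModularCurve IntermediateField

namespace Fermat.Agent.KPr

open Fermat.Agent.ModPoly Fermat.Agent.ModDeg

variable (K : Type*) [Field K]

theorem map_adjoin_vj (p : ℕ) [hp : Fact p.Prime] {N : ℕ} (hN : N ≠ 0) :
    (IntermediateField.adjoin K {vj K N}).map (qExpandAlgHomC K p) =
      IntermediateField.adjoin K {vj K (N * p)} := by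
  have : NeZero p := ⟨hp.out.ne_zero⟩
  rw [IntermediateField.adjoin_map, Set.image_singleton]
  have h : qExpandAlgHomC K p (vj K N) = vj K (N * p) := qExpand_vj K p N hN
  rw [h]

theorem adjoin_vj_le_full {N : ℕ} (hN : N ≠ 0) :
    IntermediateField.adjoin K {vj K N} ≤ modularFunctionFieldFullC K N := by
  rw [IntermediateField.adjoin_le_iff, Set.singleton_subset_iff]
  exact vj_mem_full K hN dvd_rfl

/-- `[F_Q : K(j(q^Q))] = ψ(Q)` -/
theorem relfinrank_full_vj (Q : ℕ) (hQ : (Q : K) ≠ 0) :
    IntermediateField.relfinrank (IntermediateField.adjoin K {vj K Q})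
      (modularFunctionFieldFullC K Q) = dedekindPsi Q := by
  have hQ0 : Q ≠ 0 := by rintro rfl; simp at hQ
  induction Q using induction_on_primes with
  | zero => exact absurd rfl hQ0
  | one =>
    rw [dedekindPsi_one, IntermediateField.relfinrank_eq_one_iff, full_le_iff K one_ne_zero]
    intro d hd
    rw [Nat.dvd_one.mp hd]
    exact IntermediateField.mem_adjoin_simple_self K _
  | prime_mul p N hp ih =>
    have : Fact p.Prime := ⟨hp⟩
    have hN1 : N ≠ 0 := right_ne_zero_of_mul hQ0
    rw [mul_comm p N] at hQ ⊢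
    rw [Nat.cast_mul] at hQ
    have hNK : (N : K) ≠ 0 := left_ne_zero_of_mul hQ
    have hpK : (p : K) ≠ 0 := right_ne_zero_of_mul hQ
    have : NeZero N := ⟨hN1⟩
    have : NeZero (N * p) := ⟨mul_ne_zero hN1 hp.ne_zero⟩
    have h3 := IntermediateField.relfinrank_mul_relfinrank
      (IntermediateField.map_mono (qExpandAlgHomC K p) (adjoin_vj_le_full K hN1))
      (full_degeneracyC_map_le K N p)
    rw [IntermediateField.relfinrank_map_map, ih hNK hN1, map_adjoin_vj K p hN1] at h3
    rw [← h3]
    by_cases hpN : p ∣ N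
    · rw [relfinrank_map_full_mul_of_dvd_field hNK hpK hpN, psi_mul_prime_of_dvd hN1 hp hpN,
        mul_comm]
    · rw [relfinrank_map_full_mul_of_not_dvd_field hNK hpK hpN,
        psi_mul_prime_of_not_dvd hp hpN, mul_comm]

/-- `[F_Q : K(j(q^Q))] = ψ(Q)` -/
theorem relfinrank_full_top (Q : ℕ) [hQ0 : NeZero Q] (hQ : (Q : K) ≠ 0) :
    IntermediateField.relfinrank (IntermediateField.adjoin K {qExpand K Q (jqModC K)})
      (modularFunctionFieldFullC K Q) = dedekindPsi Q := by
  rw [← vj_eq K Q]
  exact relfinrank_full_vj K Q hQ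

/-- degrees over `K(j(q))` and over `K(j(q^Q))` agree -/
theorem relfinrank_jq_eq_jQ (Q : ℕ) [hQ0 : NeZero Q] (hQ : (Q : K) ≠ 0)
    {F : IntermediateField K (LaurentSeries K)} (hF : modularFunctionFieldFullC K Q ≤ F) :
    IntermediateField.relfinrank (IntermediateField.adjoin K {jqModC K}) F =
      IntermediateField.relfinrank (IntermediateField.adjoin K {qExpand K Q (jqModC K)}) F := by
  have h1 := IntermediateField.relfinrank_mul_relfinrank (adjoin_jq_le_full (K := K) Q) hF
  have h2 := IntermediateField.relfinrank_mul_relfinrank (adjoin_vj_le_full K (NeZero.ne Q)) hF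
  rw [relfinrank_full K Q hQ] at h1
  rw [relfinrank_full_vj K Q hQ] at h2
  rw [← h1, ← vj_eq K Q, ← h2]

end Fermat.Agent.KPr
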