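import Fermat.Agent.DS1.Grp
import Mathlib.NumberTheory.LSeries.PrimesInAP

/-!
# `±Γ₁(M)` is generated by parabolic elements and `±Γ₁(n)`, `M ∣ n`
-/

set_option autoImplicit false
set_option linter.unusedSectionVars false

noncomputable section

open CongruenceSubgroup ModularCurve
open scoped MatrixGroups

namespace Fermat.Agent.KPr

open Fermat.Agent.X0Places

/-- the entries of a product -/
theorem mul_10 (γ δ : SL(2, ℤ)) : (γ * δ) 1 0 = γ 1 0 * δ 0 0 + γ 1 1 * δ 1 0 := by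
  rw [Matrix.SpecialLinearGroup.coe_mul, Matrix.mul_apply, Fin.sum_univ_two]

theorem mul_11 (γ δ : SL(2, ℤ)) : (γ * δ) 1 1 = γ 1 0 * δ 0 1 + γ 1 1 * δ 1 1 := by
  rw [Matrix.SpecialLinearGroup.coe_mul, Matrix.mul_apply, Fin.sum_univ_two]

/-- if `c`, `d` are coprime then `d + j c` is prime to `n` for some `j` -/
theorem exists_coprime_add {c d : ℤ} (h : IsCoprime c d) {n : ℕ} (hn : n ≠ 0) :
    ∃ j : ℤ, IsCoprime (d + j * c) (n : ℤ) := by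
  rcases eq_or_ne c 0 with rfl | hc
  · refine ⟨0, ?_⟩
    rw [isCoprime_zero_left] at h
    rw [zero_mul, add_zero]
    obtain ⟨u, rfl⟩ := h
    exact ⟨((u⁻¹ : ℤˣ) : ℤ), 0, by rw [Units.inv_mul, zero_mul, add_zero]⟩
  · have hcn : c.natAbs ≠ 0 := Int.natAbs_ne_zero.mpr hc
    have hcn' : NeZero c.natAbs := ⟨hcn⟩
    have hu : IsUnit ((d : ℤ) : ZMod c.natAbs) := by
      rw [ZMod.coe_int_isUnit_iff_isCoprime]
      obtain ⟨a, b, hab⟩ := h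
      rcases Int.natAbs_eq c with h1 | h1
      · exact ⟨a, b, by rw [← h1]; exact hab⟩
      · exact ⟨-a, b, by rw [show ((c.natAbs : ℕ) : ℤ) = -c by omega]; linear_combination hab⟩
    obtain ⟨p, hp, hpp, hpd⟩ := Nat.forall_exists_prime_gt_and_eq_mod hu n
    have h1 : (c.natAbs : ℤ) ∣ (p : ℤ) - d := by
      rw [← ZMod.intCast_zmod_eq_zero_iff_dvd]
      push_cast
      rw [hpd, sub_self]
    rw [Int.natAbs_dvd] at h1
    obtain ⟨j, hj⟩ := h1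
    refine ⟨j, ?_⟩
    have h2 : d + j * c = p := by linear_combination -hj
    rw [h2, Nat.isCoprime_iff_coprime, hpp.coprime_iff_not_dvd]
    intro hdvd
    exact absurd (Nat.le_of_dvd (Nat.pos_of_ne_zero hn) hdvd) (not_le.mpr hp)

variable {M : ℕ}

theorem mem_G1' {γ : SL(2, ℤ)} : γ ∈ DS1.G1 M M ↔ ((M : ℤ) ∣ γ 1 0) ∧
    ((M : ℤ) ∣ γ 1 1 - 1 ∨ (M : ℤ) ∣ γ 1 1 + 1) := by
  rw [DS1.mem_G1 dvd_rfl, Gamma0_mem, ZMod.intCast_zmod_eq_zero_iff_dvd]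
  have e1 : ((γ 1 1 : ℤ) : ZMod M) = 1 ↔ (M : ℤ) ∣ γ 1 1 - 1 := by
    rw [← ZMod.intCast_zmod_eq_zero_iff_dvd]; push_cast; rw [sub_eq_zero]
  have e2 : ((γ 1 1 : ℤ) : ZMod M) = -1 ↔ (M : ℤ) ∣ γ 1 1 + 1 := by
    rw [← ZMod.intCast_zmod_eq_zero_iff_dvd]; push_cast; rw [add_eq_zero_iff_eq_neg]
  rw [e1, e2]

variable (M) in
/-- upper unipotent -/
def uT (j : ℤ) : DS1.G1 M M := ⟨mkSL 1 j 0 1 (by ring), mem_G1'.mpr
  ⟨by rw [mkSL_10]; exact dvd_zero _, Or.inl (by rw [mkSL_11, sub_self]; exact dvd_zero _)⟩⟩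

variable (M) in
/-- lower unipotent -/
def uU (k : ℤ) : DS1.G1 M M := ⟨mkSL 1 0 (M * k) 1 (by ring), mem_G1'.mpr
  ⟨by rw [mkSL_10]; exact dvd_mul_right _ _,
    Or.inl (by rw [mkSL_11, sub_self]; exact dvd_zero _)⟩⟩

variable (M) in
/-- minus one -/
def uN : DS1.G1 M M := ⟨mkSL (-1) 0 0 (-1) (by ring), mem_G1'.mpr
  ⟨by rw [mkSL_10]; exact dvd_zero _, Or.inr (by rw [mkSL_11, neg_add_cancel]; exact dvd_zero _)⟩⟩

variable {A : Type*} [AddCommGroup A] {y : Additive (DS1.G1 M M) →+ A}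

theorem map_mul_of {γ δ : DS1.G1 M M} (h : y (Additive.ofMul δ) = 0) :
    y (Additive.ofMul (γ * δ)) = y (Additive.ofMul γ) := by
  rw [ofMul_mul, map_add, h, add_zero]

/-- **Generation.** A parabolic homomorphism on `±Γ₁(M)` vanishing on `Γ₁(n)` is zero. -/
theorem eq_zero_of_restrict {n : ℕ} (hn : n ≠ 0) (hMn : M ∣ n)
    (hpar : Period.IsParabolicHom (DS1.G1 M M) y)
    (h0 : ∀ γ : DS1.G1 M M, (n : ℤ) ∣ (γ : SL(2, ℤ)) 1 0 → (n : ℤ) ∣ (γ : SL(2, ℤ)) 1 1 - 1 →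
      y (Additive.ofMul γ) = 0) : y = 0 := by
  have hT : ∀ j, y (Additive.ofMul (uT M j)) = 0 := fun j => hpar _ (by
    show ((mkSL 1 j 0 1 (by ring) : SL(2, ℤ)) : Matrix (Fin 2) (Fin 2) ℤ).trace ^ 2 = 4
    rw [Matrix.trace_fin_two, mkSL_00, mkSL_11]; norm_num)
  have hU : ∀ k, y (Additive.ofMul (uU M k)) = 0 := fun k => hpar _ (by
    show ((mkSL 1 0 (M * k) 1 (by ring) : SL(2, ℤ)) : Matrix (Fin 2) (Fin 2) ℤ).trace ^ 2 = 4
    rw [Matrix.trace_fin_two, mkSL_00, mkSL_11]; norm_num)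
  have hN : y (Additive.ofMul (uN M)) = 0 := hpar _ (by
    show ((mkSL (-1) 0 0 (-1) (by ring) : SL(2, ℤ)) : Matrix (Fin 2) (Fin 2) ℤ).trace ^ 2 = 4
    rw [Matrix.trace_fin_two, mkSL_00, mkSL_11]; norm_num)
  -- entries
  have eT : ∀ (γ : DS1.G1 M M) (j : ℤ), ((γ * uT M j : DS1.G1 M M) : SL(2, ℤ)) 1 0 =
      (γ : SL(2, ℤ)) 1 0 ∧ ((γ * uT M j : DS1.G1 M M) : SL(2, ℤ)) 1 1 =
        (γ : SL(2, ℤ)) 1 0 * j + (γ : SL(2, ℤ)) 1 1 := by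
    intro γ j
    rw [Subgroup.coe_mul, mul_10, mul_11]
    show _ * (mkSL 1 j 0 1 (by ring) : SL(2, ℤ)) 0 0 + _ * (mkSL 1 j 0 1 (by ring) : SL(2, ℤ)) 1 0 = _ ∧
      _ * (mkSL 1 j 0 1 (by ring) : SL(2, ℤ)) 0 1 + _ * (mkSL 1 j 0 1 (by ring) : SL(2, ℤ)) 1 1 = _
    rw [mkSL_00, mkSL_01, mkSL_10, mkSL_11]
    constructor <;> ring
  have eU : ∀ (γ : DS1.G1 M M) (k : ℤ), ((γ * uU M k : DS1.G1 M M) : SL(2, ℤ)) 1 0 =
      (γ : SL(2, ℤ)) 1 0 + (γ : SL(2, ℤ)) 1 1 * (M * k) ∧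
        ((γ * uU M k : DS1.G1 M M) : SL(2, ℤ)) 1 1 = (γ : SL(2, ℤ)) 1 1 := by
    intro γ k
    rw [Subgroup.coe_mul, mul_10, mul_11]
    show _ * (mkSL 1 0 (M * k) 1 (by ring) : SL(2, ℤ)) 0 0 +
        _ * (mkSL 1 0 (M * k) 1 (by ring) : SL(2, ℤ)) 1 0 = _ ∧
      _ * (mkSL 1 0 (M * k) 1 (by ring) : SL(2, ℤ)) 0 1 +
        _ * (mkSL 1 0 (M * k) 1 (by ring) : SL(2, ℤ)) 1 1 = _
    rw [mkSL_00, mkSL_01, mkSL_10, mkSL_11]
    constructor <;> ring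
  have eN : ∀ (γ : DS1.G1 M M), ((γ * uN M : DS1.G1 M M) : SL(2, ℤ)) 1 1 =
      -(γ : SL(2, ℤ)) 1 1 := by
    intro γ
    rw [Subgroup.coe_mul, mul_11]
    show _ * (mkSL (-1) 0 0 (-1) (by ring) : SL(2, ℤ)) 0 1 +
        _ * (mkSL (-1) 0 0 (-1) (by ring) : SL(2, ℤ)) 1 1 = _
    rw [mkSL_01, mkSL_11]; ring
  -- the case of lower right entry one
  have key : ∀ γ : DS1.G1 M M, (M : ℤ) ∣ (γ : SL(2, ℤ)) 1 1 - 1 →
      y (Additive.ofMul γ) = 0 := by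
    intro γ h1
    have hM0 : (M : ℤ) ∣ (γ : SL(2, ℤ)) 1 0 := (mem_G1'.mp γ.2).1
    have hdet := Fermat.Agent.JInv.det_eq (γ : SL(2, ℤ))
    have hcop : IsCoprime ((γ : SL(2, ℤ)) 1 0) ((γ : SL(2, ℤ)) 1 1) :=
      ⟨-(γ : SL(2, ℤ)) 0 1, (γ : SL(2, ℤ)) 0 0, by linear_combination hdet⟩
    obtain ⟨j, hj⟩ := exists_coprime_add hcop hn
    obtain ⟨c', hc'⟩ := hM0
    obtain ⟨n', hn'⟩ := hMn
    obtain ⟨t₀, ht₀⟩ := h1
    set D : ℤ := (γ : SL(2, ℤ)) 1 1 + j * (γ : SL(2, ℤ)) 1 0 with hD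
    obtain ⟨u, w, huw⟩ := hj
    have hnz : (n : ℤ) = M * n' := by rw [hn']; push_cast; ring
    set k : ℤ := (1 - c') * u with hk
    have f1 := eT γ j
    set γ1 := γ * uT M j with hγ1
    have f2 := eU γ1 k
    set γ2 := γ1 * uU M k with hγ2
    have g10 : (γ2 : SL(2, ℤ)) 1 0 = M + n * (-(1 - c') * w * M) := by
      rw [f2.1, f1.1, f1.2, hc']
      have e1 : (M : ℤ) * c' * j + (γ : SL(2, ℤ)) 1 1 = D := by rw [hD, hc']; ring
      rw [e1, hk]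
      linear_combination (M : ℤ) * (1 - c') * huw
    have g11 : (γ2 : SL(2, ℤ)) 1 1 = 1 + M * (t₀ + j * c') := by
      rw [f2.2, f1.2, hc']
      linear_combination ht₀
    set t : ℤ := t₀ + j * c' with ht
    have f3 := eT γ2 (-t)
    set γ3 := γ2 * uT M (-t) with hγ3
    have f4 := eU γ3 (-1)
    set γ4 := γ3 * uU M (-1) with hγ4
    have h4 : y (Additive.ofMul γ4) = 0 := by
      apply h0
      · rw [f4.1, f3.1, f3.2, g10, g11]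
        exact ⟨-(1 - c') * w * M - M * ((1 - c') * w * M * t), by ring⟩
      · rw [f4.2, f3.2, g10, g11]
        exact ⟨(1 - c') * w * M * t, by ring⟩
    rw [hγ4, map_mul_of (hU _), hγ3, map_mul_of (hT _), hγ2, map_mul_of (hU _), hγ1,
      map_mul_of (hT _)] at h4
    exact h4
  refine AddMonoidHom.ext fun γ' => ?_
  obtain ⟨γ, rfl⟩ := Additive.ofMul.surjective γ'
  rw [AddMonoidHom.zero_apply]
  rcases (mem_G1'.mp γ.2).2 with h1 | h1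
  · exact key γ h1
  · have h2 := key (γ * uN M) (by
      rw [eN]
      have h3 : -(γ : SL(2, ℤ)) 1 1 - 1 = -((γ : SL(2, ℤ)) 1 1 + 1) := by ring
      rw [h3]
      exact (dvd_neg).mpr h1)
    rwa [map_mul_of hN] at h2

end Fermat.Agent.KPr
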