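import Fermat.Agent.KPr.CuspGal
import Fermat.Agent.Cusps.GenusEq

/-!
# Lower bound for the genus in positive characteristic
-/

set_option autoImplicit false
set_option linter.style.haveILetI false

noncomputable section

open Function ModularCurve AlgebraicCurve WithZero IntermediateField Module

namespace Fermat.Agent.KPr

open Fermat.Agent.X0Places Fermat.Agent.FunField Fermat.Agent.FunField.PlaceLemmas
  Fermat.Agent.Cusps Fermat.Agent.ModDeg Fermat.Agent.ModPoly

section Galois

variable {K : Type*} [Field K] {F : IntermediateField K (LaurentSeries K)}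
  [IsFF K F]

theorem transcendental_of_lval {h : F} {n : ℕ} (hn : 0 < n)
    (hh : lval K (h : LaurentSeries K) = exp (n : ℤ)) : Transcendental K h := by
  have h1 := (embG (G := Unit) (fun _ => (AlgEquiv.refl : F ≃ₐ[K] F))
    (fun _ _ _ => rfl) (h := h) (fun _ => rfl) hn hh).transcendental_t
  intro h2
  exact h1 h2.inv

variable [IsAlgClosed K]

/-- **The number of cusps** in a cover which is Galois over `K(j(q^Q))`. -/
theorem card_poles_j_galois {j h : F} (hj : (j : LaurentSeries K) = jqModC K) {Q : ℕ} [NeZero Q]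
    (hh : (h : LaurentSeries K) = qExpand K Q (jqModC K)) (hG : IsGalois K⟮h⟯ F) :
    Q * Nat.card {v : Place K F // v.ord j < 0} = finrank K⟮h⟯ F := by
  have hv : lval K (h : LaurentSeries K) = exp (Q : ℤ) := by rw [hh, lval_jqN]
  have htr : Transcendental K h := transcendental_of_lval (Nat.pos_of_ne_zero (NeZero.ne Q)) hv
  have hfin := finiteDimensional_adjoin_of_isFF (K := K) htr
  have hcard : Nat.card (F ≃ₐ[K⟮h⟯] F) = finrank K⟮h⟯ F := IsGalois.card_aut_eq_finrank K⟮h⟯ F
  have hfinG : Finite (F ≃ₐ[K⟮h⟯] F) := inferInstance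
  rw [← hcard]
  refine card_poles_j (G := (F ≃ₐ[K⟮h⟯] F)) (fun g => g.restrictScalars K) ?_ hj hh ?_ hcard
  · intro a b hab
    apply AlgEquiv.ext
    intro x
    exact congrArg (fun g : F ≃ₐ[K] F => g x) hab
  · intro g
    exact g.commutes (AdjoinSimple.gen K h)

end Galois

/-- separability over a bigger field, abstract form -/
theorem isSeparable_of_le {K E M : Type*} [Field K] [Field E] [Field M] [Algebra K E] [Algebra K M]
    [Algebra E M] [IsScalarTower K E M] {R : IntermediateField K M}
    (hR : ∀ r ∈ R, ∃ e : E, algebraMap E M e = r) (hsep : Algebra.IsSeparable R M) :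
    Algebra.IsSeparable E M := by
  choose g hg using hR
  let f : R →+* E :=
    { toFun := fun y => g y y.2
      map_one' := (algebraMap E M).injective (by rw [hg, map_one]; rfl)
      map_mul' := fun a b => (algebraMap E M).injective (by rw [hg, map_mul, hg, hg]; rfl)
      map_zero' := (algebraMap E M).injective (by rw [hg, map_zero]; rfl)
      map_add' := fun a b => (algebraMap E M).injective (by rw [hg, map_add, hg, hg]; rfl) }
  letI : Algebra R E := f.toAlgebra
  have : IsScalarTower R E M := IsScalarTower.of_algebraMap_eq fun x => (hg x x.2).symm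
  exact ⟨fun x => IsSeparable.tower_top E (hsep.isSeparable' x)⟩

section Ineq

variable (K : Type*) [Field K] [IsAlgClosed K]

omit [IsAlgClosed K] in
/-- places with `ord j < 0`, as a finset -/
theorem exists_finset_poles (M : Type*) [Field M] [Algebra K M] [IsFF K M] (h : M) :
    ∃ T : Finset (Place K M), (∀ Q, Q ∈ T ↔ Q.ord h < 0) ∧
      T.card = Nat.card {P : Place K M // P.ord h < 0} := by
  classical
  have hmem : ∀ Q : Place K M, Q ∈ (poleDiv h : Divisor K M).support ↔ Q.ord h < 0 := by
    intro Q
    rw [Finsupp.mem_support_iff, poleDiv_apply]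
    omega
  refine ⟨_, hmem, ?_⟩
  rw [← Fintype.card_coe, ← Nat.card_eq_fintype_card]
  exact Nat.card_congr (Equiv.subtypeEquivRight fun Q => hmem Q)

/-- the genus inequality in any characteristic `≠ p`, `p = 2, 3`, for covers of the curve of
level `p²`. -/
theorem genus_ge {p : ℕ} [hp : Fact p.Prime] (h23 : p ≤ 3) (hpK : (p : K) ≠ 0)
    {M : Type*} [Field M] [Algebra K M] [IsFF K M]
    [Algebra (modularFunctionFieldFullC K (p * p)) M]
    [IsScalarTower K (modularFunctionFieldFullC K (p * p)) M]
    {h : M} (hh : algebraMap (modularFunctionFieldFullC K (p * p)) M (HeckeRed.jF K (p * p)) = h)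
    (hsep : Algebra.IsSeparable K⟮h⟯ M)
    (hg : genusFF K (modularFunctionFieldFullC K (p * p)) = 0) :
    (finrank K⟮h⟯ M : ℤ) - 6 * Nat.card {P : Place K M // P.ord h < 0} ≤
      6 * (2 * (genusFF K M : ℤ) - 2) := by
  classical
  have hsep' : Algebra.IsSeparable (modularFunctionFieldFullC K (p * p)) M := by
    refine isSeparable_of_le (K := K) (R := K⟮h⟯) ?_ hsep
    intro r hr
    have h3 : (K⟮HeckeRed.jF K (p * p)⟯).map
        (IsScalarTower.toAlgHom K (modularFunctionFieldFullC K (p * p)) M) = K⟮h⟯ := by
      rw [adjoin_map, Set.image_singleton, ← hh]; rfl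
    rw [← h3] at hr
    obtain ⟨e, -, he⟩ := hr
    exact ⟨e, he⟩
  have hmul := PushPull.finrank_adjoin_algebraMap (K := K)
    (F := modularFunctionFieldFullC K (p * p)) (F' := M) (HeckeRed.jF K (p * p))
  have hpsi : finrank K⟮HeckeRed.jF K (p * p)⟯ (modularFunctionFieldFullC K (p * p)) =
      p * (p + 1) := by
    rw [Cusps.finrank_adjoin_eq_relfinrank]
    exact relfinrank_jj_pp hpK
  rw [hpsi, hh] at hmul
  have htr : Transcendental K h := by
    rw [← hh]
    intro hal
    have := (isAlgebraic_algebraMap_iff
      (algebraMap (modularFunctionFieldFullC K (p * p)) M).injective).1 hal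
    exact HeckeRed.transcendental_jF K (p * p) this
  have hfinj := finiteDimensional_adjoin_of_isFF (K := K) htr
  have hposj : 0 < finrank K⟮h⟯ M := finrank_pos
  have hpos : 0 < finrank (modularFunctionFieldFullC K (p * p)) M := by
    rcases Nat.eq_zero_or_pos (finrank (modularFunctionFieldFullC K (p * p)) M) with h0 | h0
    · rw [h0, mul_zero] at hmul
      omega
    · exact h0
  have hfd : FiniteDimensional (modularFunctionFieldFullC K (p * p)) M :=
    FiniteDimensional.of_finrank_pos hpos
  obtain ⟨S, hS, hScard⟩ := exists_finset_cusps K (p * p)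
  obtain ⟨T, hT, hTcard⟩ := exists_finset_poles K M h
  have hSge : p + 1 ≤ S.card := by
    rw [hScard]
    exact card_cusps_pp_ge hpK
  have hSne : S.Nonempty := Finset.card_pos.mp (by omega)
  have key := cover_genus_ineq (K := K) (E := modularFunctionFieldFullC K (p * p))
    (M := M) hg S hSne T (by
      intro Q hQ
      rw [hS] at hQ
      rw [hT, ← hh, Q.ord_restrict]
      have hepos : (0 : ℤ) < Q.ramificationIndex (modularFunctionFieldFullC K (p * p)) := by
        exact_mod_cast Q.ramificationIndex_pos (F := modularFunctionFieldFullC K (p * p))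
      exact mul_neg_of_pos_of_neg hepos hQ)
  set n := finrank (modularFunctionFieldFullC K (p * p)) M with hndef
  have h2 := hp.out.two_le
  have h3 : (finrank K⟮h⟯ M : ℤ) = (p * (p + 1) : ℤ) * n := by exact_mod_cast hmul
  have h4 : (p : ℤ) + 1 ≤ S.card := by exact_mod_cast hSge
  have h5 : (n : ℤ) * (p - 1) ≤ n * (S.card - 2) :=
    mul_le_mul_of_nonneg_left (by linarith) (Int.natCast_nonneg n)
  have h6 : (finrank K⟮h⟯ M : ℤ) ≤ 6 * (n * (p - 1)) := by
    rw [h3]
    have h7 : (p : ℤ) * (p + 1) ≤ 6 * (p - 1) := by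
      have h8 : (2 : ℤ) ≤ p := by exact_mod_cast h2
      have h9 : (p : ℤ) ≤ 3 := by exact_mod_cast h23
      nlinarith
    calc (p * (p + 1) : ℤ) * n ≤ 6 * (p - 1) * n :=
          mul_le_mul_of_nonneg_right h7 (Int.natCast_nonneg n)
      _ = _ := by ring
  rw [← hTcard]
  linarith

end Ineq

end Fermat.Agent.KPr
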