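import Fermat.Agent.KPr.Data
import Fermat.Agent.LG.MFZero

/-!
# The residue field of level `Γ` contains the fields of level `p²` in `q^Q`
-/

set_option autoImplicit false

noncomputable section

open ModularCurve IntermediateField CongruenceSubgroup
open scoped MatrixGroups

namespace Fermat.Agent.KPr

open Fermat.Agent.X0Places Fermat.Agent.ModPoly Fermat.Agent.Igusa Fermat.Agent.LG

variable {L : Type*} [Field L] [Algebra ℚ L] {ι : L →+* ℂ}
  {A : ValuationSubring L} {κ : Type*} [Field κ] {π : A →+* κ}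
  {hπ : Function.Surjective π} {Γ : Subgroup SL(2, ℤ)} {N : ℕ} [NeZero N]
  {hF : IsTameField (FG ι Γ N)}

/-- expansions `j(q^d)` for `d ∣ N`, `Γ ≤ Γ₀(N)` -/
theorem qExpand_jq_mem_FG (hΓ : Γ ≤ Gamma0 N) {d : ℕ} [NeZero d] (hd : d ∣ N) :
    qExpand L d (jqModC L) ∈ FG ι Γ N := by
  apply FG_mono hΓ
  apply FF_le_FG
  have h2 : FF L N = modularFunctionFieldFullC L N :=
    Fermat.Agent.HeckeRed.laurentBaseChange_full L N
  rw [h2]
  exact jqModCd_mem_full L N hd

/-- The residue field of level `Γ ≤ Γ₀(N)` contains `x(q^Q)` for `x` in the field of level `m`,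
`Q m ∣ N`. -/
theorem hle_of (hΓ : Γ ≤ Gamma0 N) {Q m : ℕ} [NeZero Q] (hN : Q * m ∣ N) :
    ∀ x ∈ modularFunctionFieldFullC κ m, qExpand κ Q x ∈ gaussImage A π hF hπ := by
  let φ : LaurentSeries κ →ₐ[κ] LaurentSeries κ :=
    ⟨qExpand κ Q, fun a => by
      show qExpand κ Q (algebraMap κ (LaurentSeries κ) a) = algebraMap κ (LaurentSeries κ) a
      rw [algebraMap_eq_single, qExpand_single, mul_zero]⟩
  have hle : modularFunctionFieldFullC κ m ≤ (gaussImage A π hF hπ).comap φ := by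
    rw [modularFunctionFieldFullC, adjoin_le_iff]
    rintro _ ⟨d, hd, hdm, rfl⟩
    show qExpand κ Q (qExpand κ d (jqModC κ)) ∈ gaussImage A π hF hπ
    have : NeZero (Q * d) := ⟨mul_ne_zero (NeZero.ne Q) (NeZero.ne d)⟩
    rw [qExpand_qExpand]
    exact qExpand_jq_mem_gaussImage hF (Q * d)
      (qExpand_jq_mem_FG hΓ ((Nat.mul_dvd_mul_left Q hdm).trans hN))
  exact fun x hx => hle hx

end Fermat.Agent.KPr
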