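import Fermat.Agent.KPr.Data
import Fermat.Agent.KPr.Deg
import Fermat.Agent.XMB.Resid
import Fermat.Agent.DS1.Main

/-!
# The hypotheses on the residue field, from an action of `SL₂(ℤ)`
-/

set_option autoImplicit false
set_option linter.unusedSectionVars false
set_option linter.style.haveILetI false

noncomputable section

open Function ModularCurve AlgebraicCurve WithZero IntermediateField Module CongruenceSubgroup
open scoped MatrixGroups

namespace Fermat.Agent.KPr

open Fermat.Agent.X0Places Fermat.Agent.FunField Fermat.Agent.FunField.PlaceLemmas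
  Fermat.Agent.Cusps Fermat.Agent.ModDeg Fermat.Agent.ModPoly Fermat.Agent.Igusa
  Fermat.Agent.LG Fermat.Agent.LGRes Fermat.Agent.XMB Fermat.Agent.TorsCmp

section Full

variable {L : Type*} [Field L] [Algebra ℚ L] [IsAlgClosed L] (ι : L →+* ℂ)
  {Γ : Subgroup SL(2, ℤ)} {N : ℕ} [NeZero N]

/-- the functions of level `Γ₀(N)` -/
theorem full_le_FG (h : Γ ≤ Gamma0 N) : modularFunctionFieldFullC L N ≤ FG ι Γ N := by
  have h1 := Fermat.Agent.HeckeRed.laurentBaseChange_full L N
  rw [← h1]
  exact (FG_gamma0 ι N).ge.trans (FG_mono h)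

variable (A : ValuationSubring L) {κ : Type*} [Field κ] (π : A →+* κ) [IsLocalHom π]
  (hπ : Function.Surjective π)

theorem full_le_gaussImage_G (h : Γ ≤ Gamma0 N) (hF : IsTameField (FG ι Γ N)) :
    modularFunctionFieldFullC κ N ≤ gaussImage A π hF hπ :=
  (full_le_gaussImage A π hπ N).trans
    (gaussImage_mono A π hπ (full_le_FG ι h) (isTameField_full (L := L) N) hF)

theorem full_mono (K : Type*) [Field K] {M N : ℕ} [NeZero N] (h : M ∣ N) :
    modularFunctionFieldFullC K M ≤ modularFunctionFieldFullC K N := by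
  rw [modularFunctionFieldFullC, IntermediateField.adjoin_le_iff]
  rintro _ ⟨d, hd, hdM, rfl⟩
  exact jqModCd_mem_full K N (hdM.trans h)

end Full

section Hyp

variable {L : Type*} [Field L] [Algebra ℚ L] [IsAlgClosed L] {ι : L →+* ℂ}
  {A : ValuationSubring L} {κ : Type*} [Field κ] [IsAlgClosed κ] {π : A →+* κ} [IsLocalHom π]
  {hπ : Function.Surjective π} {Γ : Subgroup SL(2, ℤ)} {N : ℕ} [NeZero N] [hMF : MF ι Γ N]
  {hF : IsTameField (FG ι Γ N)} {Q : ℕ} [NeZero Q]

/-- **The hypotheses on the residue field**, from an action of `SL₂(ℤ)`. -/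
theorem hyp_of {D : ActData Q (FG ι Γ N)} (hfix : D.FixH) (hg : Good D.G (gaussVal A π hF))
    (hQN : Q ∣ N) (hΓ : Γ ≤ Gamma0 N) : Hyp A π hπ hF Q := by
  have : CharZero L := algebraRat.charZero L
  have hQL : (Q : L) ≠ 0 := Nat.cast_ne_zero.2 (NeZero.ne Q)
  have h1 : modularFunctionFieldFullC L Q ≤ FG ι Γ N :=
    (full_mono L hQN).trans (full_le_FG ι hΓ)
  have h2 : modularFunctionFieldFullC κ Q ≤ gaussImage A π hF hπ :=
    (full_mono κ hQN).trans (full_le_gaussImage_G ι A π hπ hΓ hF)
  have hκ : qExpand κ Q (jqModC κ) ∈ gaussImage A π hF hπ := h2 (jqModCd_mem_full κ Q dvd_rfl)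
  have hj : relfinrank L⟮jqModC L⟯ (FG ι Γ N) = Nat.card (XG Γ) := by
    rw [← MF.deg (ι := ι) (Γ := Γ) (N := N), Cusps.finrank_adjoin_eq_relfinrank, coe_jG]
  have hcard : Nat.card D.G = Nat.card (XG Γ) := by
    rw [← ActData.relfinrank_F hfix, relfinrank_h_eq Q hQL h1, hj]
  exact
    { hL := hfix.mem
      galL := ActData.isGalois_F hfix _ rfl
      degL := by
        rw [Cusps.finrank_adjoin_eq_relfinrank]
        exact (ActData.relfinrank_F hfix).trans hcard
      hκ := hκ
      galκ := ActData.isGalois_h hF hfix hg hπ _ rfl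
      degκ := by
        rw [Cusps.finrank_adjoin_eq_relfinrank]
        exact (ActData.relfinrank_h hF hfix hg hπ).trans hcard }

end Hyp

end Fermat.Agent.KPr
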