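import Fermat.Agent.KPr.HypGs
import Fermat.Agent.XMB.Inst
import Fermat.Agent.XMB.H1

/-!
# The hypotheses on the residue field of the field of level `Γ(Q)`
-/

set_option autoImplicit false
set_option linter.unusedSectionVars false
set_option linter.style.haveILetI false

noncomputable section

open ModularCurve CongruenceSubgroup IntermediateField
open scoped MatrixGroups

namespace Fermat.Agent.XMB

open Fermat.Agent.Igusa Fermat.Agent.LG

variable {Q : ℕ} [NeZero Q] {L : Type*} [Field L] [Algebra ℚ L] [IsAlgClosed L]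
  (ι : L →+* ℂ) (hQ2 : 2 < Q)
  {A : ValuationSubring L} {κ : Type*} [Field κ] [IsAlgClosed κ] {π : A →+* κ} [IsLocalHom π]
  (hF : IsTameField (FG ι (Gs Q) (Q ^ 2))) (hπ : Function.Surjective π)

include hπ in
/-- **Stability of the Gauss valuation of the field of level `Γ(Q)`.** -/
theorem good_Gs (hQκ : (Q : κ) ≠ 0) :
    Good (actData (Q := Q) ι hQ2).G (gaussVal A π hF) :=
  good_of_H1 ι hQ2 hF hQκ fun _ hx hfix γ =>
    act_mem_gaussVal_of_fix ι π hπ (dvd_refl Q) hQκ hQ2 hF hx hfix γ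

end Fermat.Agent.XMB

namespace Fermat.Agent.KPr

open Fermat.Agent.Igusa Fermat.Agent.LG Fermat.Agent.XMB

/-- **The hypotheses `Hyp` hold for `Γs Q`.** -/
theorem hyp_Gs {Q : ℕ} [NeZero Q] (hQ2 : 2 < Q) {L : Type*} [Field L] [Algebra ℚ L]
    [IsAlgClosed L] {ι : L →+* ℂ} {A : ValuationSubring L} {κ : Type*} [Field κ] [IsAlgClosed κ]
    {π : A →+* κ} [IsLocalHom π] {hπ : Function.Surjective π} (hQκ : (Q : κ) ≠ 0)
    {hF : IsTameField (FG ι (Gs Q) (Q ^ 2))} :
    haveI : MF ι (Gs Q) (Q ^ 2) := DS1.mf_G1 ι (dvd_pow_self Q two_ne_zero) hQ2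
    Hyp A π hπ hF Q := by
  haveI : MF ι (Gs Q) (Q ^ 2) := DS1.mf_G1 ι (dvd_pow_self Q two_ne_zero) hQ2
  exact hyp_of (fixH ι hQ2) (good_Gs ι hQ2 hF hπ hQκ) (dvd_pow_self Q two_ne_zero)
    DS1.G1_le_gamma0

end Fermat.Agent.KPr
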