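import Fermat.Agent.KPr.HypInst
import Fermat.Agent.KPr.Hle
import Fermat.Agent.KPr.Gen
import Fermat.Agent.DS1.Rep
import Fermat.Agent.DSF.Wire

/-!
# (K') for the groups `±Γ₁(M)`
-/

set_option autoImplicit false
set_option linter.style.haveILetI false

noncomputable section

open ModularCurve IntermediateField CongruenceSubgroup
open scoped MatrixGroups

namespace Fermat.Agent.KPr

open Fermat.Agent.X0Places Fermat.Agent.Igusa Fermat.Agent.LG Fermat.Agent.XMB Fermat.Agent.DS1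

theorem kprStmt (ι : AlgebraicClosure ℚ →+* ℂ) : DSF.KPrStmt ι := by
  intro M ℓ hM0 hℓ h5 hℓM s hs hsM A hA y hy hTR
  haveI : Fact s.Prime := ⟨hs⟩
  haveI : NeZero ℓ := ⟨hℓ.ne_zero⟩
  haveI i1 : IsAlgClosed (IsLocalRing.ResidueField A) :=
    Fermat.Agent.HeckeRed.isAlgClosed_residueField A
  haveI i2 : CharP (IsLocalRing.ResidueField A) s :=
    Fermat.Agent.HeckeRed.charP_residueField hs hA
  obtain ⟨p, hp, h23, hps⟩ : ∃ p : ℕ, p.Prime ∧ p ≤ 3 ∧ p ≠ s := by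
    by_cases h2 : s = 2
    · exact ⟨3, Nat.prime_three, le_rfl, by omega⟩
    · exact ⟨2, Nat.prime_two, by norm_num, fun h => h2 h.symm⟩
  haveI : Fact p.Prime := ⟨hp⟩
  have hsp : ¬ s ∣ p := fun h => hps ((Nat.prime_dvd_prime_iff_eq hs hp).1 h).symm
  set Q := M * (p * p) with hQdef
  have hQ0 : Q ≠ 0 := mul_ne_zero (NeZero.ne M) (mul_ne_zero hp.ne_zero hp.ne_zero)
  haveI : NeZero Q := ⟨hQ0⟩
  have hsQ : ¬ s ∣ Q := by
    intro h
    rcases (Nat.Prime.dvd_mul hs).1 h with h | h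
    · exact hsM h
    · rcases (Nat.Prime.dvd_mul hs).1 h with h | h
      · exact hsp h
      · exact hsp h
  have hQκ : (Q : IsLocalRing.ResidueField A) ≠ 0 := by
    rw [Ne, CharP.cast_eq_zero_iff (IsLocalRing.ResidueField A) s]
    exact hsQ
  have hpκ : (p : IsLocalRing.ResidueField A) ≠ 0 := by
    rw [Ne, CharP.cast_eq_zero_iff (IsLocalRing.ResidueField A) s]
    exact hsp
  have hℓκ : (ℓ : IsLocalRing.ResidueField A) ≠ 0 := by
    rw [Ne, CharP.cast_eq_zero_iff (IsLocalRing.ResidueField A) s]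
    exact fun h => hsM (h.trans hℓM)
  have hM5 : 5 ≤ M := h5.trans (Nat.le_of_dvd (Nat.pos_of_ne_zero (NeZero.ne M)) hℓM)
  have hMQ : M ∣ Q := Dvd.intro _ rfl
  have hQ2 : 2 < Q := by
    have := Nat.le_of_dvd (Nat.pos_of_ne_zero hQ0) hMQ
    omega
  have hQQ : Q ∣ Q ^ 2 := dvd_pow_self Q two_ne_zero
  haveI : NeZero (Q ^ 2) := ⟨pow_ne_zero 2 hQ0⟩
  have hle : Gs Q ≤ G1 M M := G1_mono (dvd_refl M) hQQ (hMQ.trans hQQ) hMQ
  have hπ : Function.Surjective (IsLocalRing.residue A) := IsLocalRing.residue_surjective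
  haveI hMF : MF ι (Gs Q) (Q ^ 2) := DS1.mf_G1 ι hQQ hQ2
  have hF : IsTameField (FG ι (Gs Q) (Q ^ 2)) := DS1.isTameField_G1 ι hQQ (by omega)
  have H : Hyp A (IsLocalRing.residue A) hπ hF Q := hyp_Gs hQ2 hQκ
  have h1 : resW hle (ZMod ℓ) y = 0 :=
    H.eq_zero_of_TR h23 hpκ
      (hle_of G1_le_gamma0 (by rw [pow_two]; exact Nat.mul_dvd_mul_left Q (Dvd.intro_left _ rfl)))
      hℓκ (resW_mem_PE hle hy) (TR_inclW hle (hMQ.trans hQQ) hTR)
  refine eq_zero_of_restrict (n := Q ^ 2) (pow_ne_zero 2 hQ0) (hMQ.trans hQQ) hy.1 ?_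
  intro γ hγ0 hγ1
  have hγ : (γ : SL(2, ℤ)) ∈ Gs Q := by
    rw [mem_G1 hQQ]
    refine ⟨?_, Or.inl ?_⟩
    · rw [Gamma0_mem, ZMod.intCast_zmod_eq_zero_iff_dvd]
      exact hγ0
    · have h2 : (Q : ℤ) ∣ (γ : SL(2, ℤ)) 1 1 - 1 :=
        (Int.natCast_dvd_natCast.2 hQQ).trans hγ1
      have h3 := (ZMod.intCast_zmod_eq_zero_iff_dvd _ Q).2 h2
      rw [Int.cast_sub, Int.cast_one, sub_eq_zero] at h3
      exact h3
  have h2 := DFunLike.congr_fun h1 (Additive.ofMul ⟨γ, hγ⟩)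
  exact h2

end Fermat.Agent.KPr
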